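import Mathlib
import Fermat.Agent.Lib.S24.JExpansion

/-!
# P11 (S16), package C: the Sturm bound at level one, modulo a prime

Abstract form: `R` a ring with an injective `ι : R →+* ℂ` and a ring homomorphism `red : R →+* k'`
into a domain.  If `f ∈ M_k(SL(2, ℤ))` has `q`-expansion `ι(t)`, `t ∈ R⟦X⟧`, and the reduction
`red(t)` has order `> k/12`, then `red(t) = 0`  (`sturm_mod`).

Proof: induction on `k` via `f - a₀ E₄^a E₆^b = Δ f'`, using that `E₄, E₆, Δ/q` have integral
`q`-expansions with constant term `1`.
-/

set_option autoImplicit false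

open scoped MatrixGroups ModularForm
open UpperHalfPlane ModularForm PowerSeries

namespace Fermat.Agent.Eis

local notation "Δ" => ModularForm.discriminant

/-- the integral `q`-expansion of `E₆` -/
noncomputable def eisenstein6Z : PowerSeries ℤ :=
  PowerSeries.mk fun n => if n = 0 then 1 else -504 * ∑ d ∈ n.divisors, (d : ℤ) ^ 5

theorem constantCoeff_eisenstein6Z : PowerSeries.constantCoeff eisenstein6Z = 1 := by
  rw [← PowerSeries.coeff_zero_eq_constantCoeff]
  simp [eisenstein6Z]

theorem qExpansion_E₆_eq :
    qExpansion 1 ModularForm.E₆ = PowerSeries.map (Int.castRingHom ℂ) eisenstein6Z := by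
  ext m
  rw [EisensteinSeries.E_qExpansion_coeff _ ⟨3, rfl⟩, PowerSeries.coeff_map,
    eisenstein6Z, PowerSeries.coeff_mk]
  split_ifs with h
  · simp
  · rw [show _root_.bernoulli 6 = 1 / 42 by decide +kernel, ArithmeticFunction.sigma_apply]
    push_cast
    norm_num

/-- `E₄^a E₆^b` as a modular form of weight `4a + 6b` -/
noncomputable def eisMonomial (a b : ℕ) : ModularForm 𝒮ℒ ((4 * a + 6 * b : ℕ) : ℤ) :=
  ModularForm.mcast (by push_cast; ring) ((ModularForm.E₄.pow a).mul (ModularForm.E₆.pow b))

/-- the integral `q`-expansion of `E₄^a E₆^b` -/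
noncomputable def eisMonomialZ (a b : ℕ) : PowerSeries ℤ :=
  ModularCurve.eisenstein4 ^ a * eisenstein6Z ^ b

theorem constantCoeff_eisMonomialZ (a b : ℕ) :
    PowerSeries.constantCoeff (eisMonomialZ a b) = 1 := by
  rw [eisMonomialZ, map_mul, map_pow, map_pow, ModularCurve.constantCoeff_eisenstein4,
    constantCoeff_eisenstein6Z, one_pow, one_pow, one_mul]

theorem qExpansion_eisMonomial (a b : ℕ) :
    qExpansion 1 (eisMonomial a b) = PowerSeries.map (Int.castRingHom ℂ) (eisMonomialZ a b) := by
  rw [eisMonomial, ModularForm.qExpansion_mcast,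
    ModularForm.qExpansion_mul one_pos one_mem_strictPeriods_SL,
    ModularForm.qExpansion_pow one_pos one_mem_strictPeriods_SL,
    ModularForm.qExpansion_pow one_pos one_mem_strictPeriods_SL,
    Fermat.Agent.S24Lib.qExpansion_E₄, qExpansion_E₆_eq, eisMonomialZ, map_mul, map_pow, map_pow]

theorem exists_four_six (k : ℕ) (hk : Even k) (hk2 : k ≠ 2) : ∃ a b : ℕ, 4 * a + 6 * b = k := by
  obtain ⟨m, rfl⟩ := hk
  rcases Nat.even_or_odd' m with ⟨c, rfl | rfl⟩
  · exact ⟨c, 0, by ring⟩
  · have hc : 1 ≤ c := by
      rcases Nat.eq_zero_or_pos c with rfl | hc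
      · exact absurd rfl hk2
      · exact hc
    exact ⟨c - 1, 1, by omega⟩

section Abstract

variable {R k' : Type*} [CommRing R] [CommRing k'] [IsDomain k']
  (ι : R →+* ℂ) (hι : Function.Injective ι) (red : R →+* k')

include hι in
theorem eq_zero_of_map_eq_zero (t : PowerSeries R) (h : PowerSeries.map ι t = 0) : t = 0 := by
  ext n
  have := congrArg (PowerSeries.coeff n) h
  rw [PowerSeries.coeff_map, map_zero] at this
  rw [map_zero]
  exact hι (by rw [this, map_zero])

omit [IsDomain k'] in
theorem map_map_intCast (z : PowerSeries ℤ) :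
    PowerSeries.map ι (PowerSeries.map (Int.castRingHom R) z) =
      PowerSeries.map (Int.castRingHom ℂ) z := by
  ext n
  simp [PowerSeries.coeff_map]

/-- `Δ = q · δ` with `δ` invertible, over `R` -/
theorem qExpansion_discriminant_map :
    qExpansion 1 Δ = PowerSeries.X *
      PowerSeries.map ι (PowerSeries.map (Int.castRingHom R) ModularCurve.dedekindEtaUnit) := by
  rw [map_map_intCast]
  exact Fermat.Agent.S24Lib.qExpansion_discriminant

include hι in
/-- **Sturm bound modulo `red`** for level one. -/
theorem sturm_mod {k : ℕ} (f : ModularForm 𝒮ℒ (k : ℤ)) (t : PowerSeries R)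
    (ht : qExpansion 1 f = PowerSeries.map ι t)
    (h : ((k / 12 : ℕ) : ℕ∞) < (PowerSeries.map red t).order) :
    PowerSeries.map red t = 0 := by
  induction k using Nat.strong_induction_on generalizing t with
  | _ k ih =>
  rcases Nat.even_or_odd k with hk | hk
  swap
  · -- odd weight
    have hf : f = 0 := ModularForm.levelOne_odd_weight_eq_zero (by exact_mod_cast hk) f
    rw [hf, FunLike.coe_zero, qExpansion_zero] at ht
    rw [eq_zero_of_map_eq_zero ι hι t ht.symm, map_zero]
  by_cases hk2 : k = 2
  · subst hk2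
    have hf : f = 0 := by
      have h := levelOne_weight_two_rank_zero
      rw [rank_zero_iff_forall_zero] at h
      exact h f
    rw [hf, FunLike.coe_zero, qExpansion_zero] at ht
    rw [eq_zero_of_map_eq_zero ι hι t ht.symm, map_zero]
  obtain ⟨a, b, hab⟩ := exists_four_six k hk hk2
  subst hab
  set E := eisMonomial a b with hE
  set e : PowerSeries R := PowerSeries.map (Int.castRingHom R) (eisMonomialZ a b) with he
  have hEq : qExpansion 1 E = PowerSeries.map ι e := by
    rw [he, map_map_intCast, hE, qExpansion_eisMonomial]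
  have he0 : PowerSeries.constantCoeff e = 1 := by
    rw [he, ← PowerSeries.coeff_zero_eq_constantCoeff_apply, PowerSeries.coeff_map,
      PowerSeries.coeff_zero_eq_constantCoeff_apply, constantCoeff_eisMonomialZ, map_one]
  -- the constant term of `t` reduces to zero
  have hred0 : red (PowerSeries.constantCoeff t) = 0 := by
    have := PowerSeries.coeff_of_lt_order (φ := PowerSeries.map red t) 0
      ((Nat.cast_nonneg _).trans_lt h)
    rwa [PowerSeries.coeff_map, PowerSeries.coeff_zero_eq_constantCoeff_apply] at this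
  -- subtract the Eisenstein part
  set t0 : R := PowerSeries.constantCoeff t with ht0
  set g : ModularForm 𝒮ℒ ((4 * a + 6 * b : ℕ) : ℤ) := f - (ι t0) • E with hg
  set t1 : PowerSeries R := t - PowerSeries.C t0 * e with ht1
  have hgq : qExpansion 1 g = PowerSeries.map ι t1 := by
    rw [hg, FunLike.coe_sub, ModularForm.qExpansion_sub one_pos one_mem_strictPeriods_SL,
      FunLike.coe_smul, ModularForm.qExpansion_smul one_pos one_mem_strictPeriods_SL, ht, hEq,
      ht1, map_sub, map_mul, PowerSeries.map_C, PowerSeries.smul_eq_C_mul]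
  have ht10 : PowerSeries.constantCoeff t1 = 0 := by
    rw [ht1, map_sub, map_mul, PowerSeries.constantCoeff_C, he0, mul_one, sub_self]
  have hg0 : (qExpansion 1 g).coeff 0 = 0 := by
    rw [hgq, PowerSeries.coeff_map, PowerSeries.coeff_zero_eq_constantCoeff_apply, ht10, map_zero]
  obtain ⟨u, hu⟩ := PowerSeries.X_dvd_iff.mpr ht10
  have hfac := ModularForm.qExpansion_eq_qExpansion_discriminant_mul g hg0
  set g' := CuspForm.discriminantEquiv (ModularForm.toCuspForm g hg0) with hg'
  set δ : PowerSeries R := PowerSeries.map (Int.castRingHom R) ModularCurve.dedekindEtaUnit with hδ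
  set δi : PowerSeries R := PowerSeries.map (Int.castRingHom R) ModularCurve.dedekindEtaUnitInv
    with hδi
  have hδδi : δ * δi = 1 := by
    rw [hδ, hδi, ← map_mul, ModularCurve.dedekindEtaUnit_mul_inv, map_one]
  have hΔ : qExpansion 1 (Δ : ℍ → ℂ) = PowerSeries.X * PowerSeries.map ι δ :=
    qExpansion_discriminant_map ι
  have hg'q : qExpansion 1 g' = PowerSeries.map ι (δi * u) := by
    have h1 : PowerSeries.X * PowerSeries.map ι u =
        PowerSeries.X * (PowerSeries.map ι δ * qExpansion 1 g') := by
      rw [← mul_assoc, ← hΔ, ← hfac, hgq, hu, map_mul, PowerSeries.map_X]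
    have h2 := mul_left_cancel₀ PowerSeries.X_ne_zero h1
    rw [map_mul, h2, ← mul_assoc, ← map_mul, mul_comm δi δ, hδδi, map_one, one_mul]
  -- reductions
  have hredt : PowerSeries.map red t = PowerSeries.X * PowerSeries.map red u := by
    have : t = PowerSeries.C t0 * e + PowerSeries.X * u := by rw [← hu, ht1]; ring
    rw [this, map_add, map_mul, map_mul, PowerSeries.map_C, hred0, map_zero, zero_mul, zero_add,
      PowerSeries.map_X]
  have hredu : PowerSeries.map red u = PowerSeries.map red δ * PowerSeries.map red (δi * u) := by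
    rw [← map_mul, ← mul_assoc, hδδi, one_mul]
  suffices hsuff : PowerSeries.map red (δi * u) = 0 by
    rw [hredt, hredu, hsuff, mul_zero, mul_zero]
  rcases lt_or_ge (4 * a + 6 * b) 12 with hk12 | hk12
  · -- negative weight
    have hneg : ((4 * a + 6 * b : ℕ) : ℤ) - 12 < 0 := by omega
    have hz : (⇑g' : ℍ → ℂ) = 0 := ModularFormClass.levelOne_neg_weight_eq_zero hneg g'
    rw [hz, qExpansion_zero] at hg'q
    rw [eq_zero_of_map_eq_zero ι hι _ hg'q.symm, map_zero]
  · -- induction
    have hw : ((4 * a + 6 * b : ℕ) : ℤ) - 12 = ((4 * a + 6 * b - 12 : ℕ) : ℤ) := by omega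
    refine ih (4 * a + 6 * b - 12) (by omega) (ModularForm.mcast hw g') (δi * u)
      (by rw [ModularForm.qExpansion_mcast]; exact hg'q) ?_
    have hδ0 : (PowerSeries.map red δ).order = 0 := by
      apply PowerSeries.order_zero_of_unit
      exact IsUnit.of_mul_eq_one _ (by rw [← map_mul, hδδi, map_one])
    have hsucc : (4 * a + 6 * b) / 12 = (4 * a + 6 * b - 12) / 12 + 1 := by omega
    rw [hsucc, Nat.cast_add, Nat.cast_one, hredt, hredu, PowerSeries.order_mul,
      PowerSeries.order_mul, PowerSeries.order_X, hδ0, zero_add,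
      add_comm (1 : ℕ∞)] at h
    exact (ENat.add_lt_add_iff_right (ENat.natCast_ne_top 1)).mp h

end Abstract

end Fermat.Agent.Eis
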