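import Mathlib
import Fermat.Agent.Lib.Eis.QSeries

/-!
# P11 (S16), package C: more on the formal operators `U_p`, `V_p`

Compatibility with coefficient maps, with multiplication by constants, subtraction, orders.
-/

set_option autoImplicit false

namespace Fermat.Agent.Eis

open PowerSeries

section Semiring

variable {R S : Type*} [CommSemiring R] [CommSemiring S]

theorem map_psU (f : R →+* S) (p : ℕ) (F : PowerSeries R) :
    PowerSeries.map f (psU p F) = psU p (PowerSeries.map f F) := by
  ext n
  simp [coeff_psU]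

theorem map_psV (f : R →+* S) (p : ℕ) (F : PowerSeries R) :
    PowerSeries.map f (psV p F) = psV p (PowerSeries.map f F) := by
  ext n
  simp only [coeff_map, coeff_psV]
  split_ifs <;> simp

theorem psU_C_mul (p : ℕ) (c : R) (F : PowerSeries R) :
    psU p (PowerSeries.C c * F) = PowerSeries.C c * psU p F := by
  rw [← PowerSeries.smul_eq_C_mul, psU_smul, PowerSeries.smul_eq_C_mul]

theorem psV_C_mul (p : ℕ) (c : R) (F : PowerSeries R) :
    psV p (PowerSeries.C c * F) = PowerSeries.C c * psV p F := by
  rw [← PowerSeries.smul_eq_C_mul, psV_smul, PowerSeries.smul_eq_C_mul]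

theorem eq_zero_of_psV_eq_zero {p : ℕ} (hp : p ≠ 0) {F : PowerSeries R} (h : psV p F = 0) :
    F = 0 := by
  rw [← psU_psV hp F, h, psU_zero]

theorem psU_one {p : ℕ} (hp : p ≠ 0) : psU p (1 : PowerSeries R) = 1 := by
  rw [← psV_one hp, psU_psV hp, psV_one hp]

theorem le_order_psV {p : ℕ} (hp : p ≠ 0) (F : PowerSeries R) (h0 : coeff 0 F = 0) :
    (p : ℕ∞) ≤ (psV p F).order := by
  refine PowerSeries.nat_le_order _ _ fun i hi => ?_
  rw [coeff_psV]
  split_ifs with h
  · obtain ⟨k, rfl⟩ := h
    rcases Nat.eq_zero_or_pos k with rfl | hk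
    · simpa using h0
    · exfalso
      have : p * 1 ≤ p * k := Nat.mul_le_mul_left p hk
      omega
  · rfl

theorem coeff_zero_psV (p : ℕ) (F : PowerSeries R) : coeff 0 (psV p F) = coeff 0 F := by
  rw [coeff_psV, if_pos (dvd_zero p), Nat.zero_div]

theorem coeff_zero_psU (p : ℕ) (F : PowerSeries R) : coeff 0 (psU p F) = coeff 0 F := by
  rw [coeff_psU, zero_mul]

end Semiring

section Ring

variable {R : Type*} [CommRing R]

@[simp] theorem psU_neg (p : ℕ) (F : PowerSeries R) : psU p (-F) = -psU p F := by
  ext n; simp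

@[simp] theorem psU_sub (p : ℕ) (F G : PowerSeries R) : psU p (F - G) = psU p F - psU p G := by
  ext n; simp

@[simp] theorem psV_neg (p : ℕ) (F : PowerSeries R) : psV p (-F) = -psV p F := by
  ext n
  simp only [coeff_psV, map_neg]
  split_ifs <;> simp

@[simp] theorem psV_sub (p : ℕ) (F G : PowerSeries R) : psV p (F - G) = psV p F - psV p G := by
  rw [sub_eq_add_neg, psV_add, psV_neg, ← sub_eq_add_neg]

end Ring

end Fermat.Agent.Eis
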