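import Mathlib
import Fermat.Agent.Lib.Eis.Upper.ModL
import Fermat.Agent.Lib.Eis.Upper.QSeriesMap
import Fermat.Agent.Lib.Eis.Level.TraceProd

/-!
# P11 (S16), package C: the weight trick

Two level one forms `f₁ ∈ M_K`, `f₂ ∈ M_{K+2}` with `λ`-integral `q`-expansions which are
congruent modulo `λ^a`, with `f₁ ≢ 0 mod λ`, cannot exist as soon as there is a large prime `r`
with `v_λ(r² - 1) < a`:
`D = f₂ · T_r f₁ - f₁ · T_r f₂ ∈ M_{2K+2}` is `≡ r^(K-1) (1 - r²) f₁ · V_r f₁ mod λ^a`, and after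
dividing by `λ^t` its reduction has `q`-order `≥ 1 + r`, so vanishes by the Sturm bound.
-/

set_option autoImplicit false

open scoped MatrixGroups ModularForm
open UpperHalfPlane ModularForm PowerSeries ModularFormClass

namespace Fermat.Agent.Eis

section Abstract

variable {R k' : Type*} [CommRing R] [CommRing k'] [IsDomain k']
  (ι : R →+* ℂ) (hι : Function.Injective ι) (red : R →+* k')

omit [IsDomain k'] in
/-- the `q`-expansion of `T_p F` at level one, for `F` with coefficients in `R` -/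
theorem qExpansion_levelOneHeckeT_map (p : ℕ) [hpF : Fact p.Prime] {K : ℕ} (hK : 1 ≤ K) {k : ℤ}
    (hk : k = K) (F : ModularForm 𝒮ℒ k) (φ : PowerSeries R)
    (h : qExpansion 1 F = PowerSeries.map ι φ) :
    qExpansion 1 (levelOneHeckeT p F) =
      PowerSeries.map ι (psU p φ + PowerSeries.C ((p : R) ^ (K - 1)) * psV p φ) := by
  ext n
  have h1 : (qExpansion 1 ⇑(levelOneHeckeT p F)).coeff n = coeffHeckeT k p (qCoeff ⇑F) n :=
    qCoeff_levelOneHeckeT p F n
  have h2 : ∀ j, qCoeff ⇑F j = ι (PowerSeries.coeff j φ) := by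
    intro j
    rw [qCoeff, h, PowerSeries.coeff_map]
  have h3 : (p : ℂ) ^ (k - 1) = ι ((p : R) ^ (K - 1)) := by
    rw [hk, map_pow, map_natCast, ← zpow_natCast, Nat.cast_sub hK, Nat.cast_one]
  rw [h1, coeffHeckeT_apply, h2, PowerSeries.coeff_map, map_add, PowerSeries.coeff_C_mul,
    coeff_psU, coeff_psV, map_add, map_mul, h3]
  congr 1
  split_ifs with hd
  · rw [h2]
  · rw [map_zero, mul_zero]

include hι in
/-- **The weight trick.** -/
theorem weight_trick (lam : R) (hlam : red lam = 0) (hlam0 : ι lam ≠ 0)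
    {K : ℕ} (hK : 1 ≤ K) (f1 : ModularForm 𝒮ℒ (K : ℤ)) (f2 : ModularForm 𝒮ℒ ((K : ℤ) + 2))
    (φ1 φ2 ψ : PowerSeries R) (h1 : qExpansion 1 f1 = PowerSeries.map ι φ1)
    (h2 : qExpansion 1 f2 = PowerSeries.map ι φ2)
    {a t : ℕ} (hta : t < a) (hφ : φ2 = φ1 + PowerSeries.C (lam ^ a) * ψ)
    (r : ℕ) [hrF : Fact r.Prime] (m : R) (hr : (r : R) ^ 2 - 1 = lam ^ t * m) (hm : red m ≠ 0)
    (hrr : red (r : R) ≠ 0)
    (hφ0 : PowerSeries.coeff 0 φ1 = 0) (hφ1 : red (PowerSeries.coeff 1 φ1) ≠ 0)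
    (hbig : 2 * K + 2 < 12 * (1 + r)) : False := by
  have hr0 : r ≠ 0 := hrF.out.ne_zero
  -- the Hecke translates
  have hT1 := qExpansion_levelOneHeckeT_map ι r hK rfl f1 φ1 h1
  have hT2 := qExpansion_levelOneHeckeT_map ι r (K := K + 2) (by omega)
    (by push_cast; ring) f2 φ2 h2
  rw [show K + 2 - 1 = K + 1 by omega] at hT2
  set τ1 : PowerSeries R := psU r φ1 + PowerSeries.C ((r : R) ^ (K - 1)) * psV r φ1 with hτ1
  set τ2 : PowerSeries R := psU r φ2 + PowerSeries.C ((r : R) ^ (K + 1)) * psV r φ2 with hτ2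
  -- the form `D`
  set D : ModularForm 𝒮ℒ ((2 * K + 2 : ℕ) : ℤ) :=
    ModularForm.mcast (by push_cast; ring) (f2.mul (levelOneHeckeT r f1)) -
      ModularForm.mcast (by push_cast; ring) (f1.mul (levelOneHeckeT r f2)) with hD
  have hDq : qExpansion 1 D = PowerSeries.map ι (φ2 * τ1 - φ1 * τ2) := by
    rw [hD, FunLike.coe_sub, ModularForm.qExpansion_sub one_pos one_mem_strictPeriods_SL,
      ModularForm.qExpansion_mcast, ModularForm.qExpansion_mcast,
      ModularForm.qExpansion_mul one_pos one_mem_strictPeriods_SL,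
      ModularForm.qExpansion_mul one_pos one_mem_strictPeriods_SL, h1, h2, hT1, hT2, map_sub,
      map_mul, map_mul]
  -- the algebraic identity
  set W : PowerSeries R := ψ * τ1 -
    φ1 * (psU r ψ + PowerSeries.C ((r : R) ^ (K + 1)) * psV r ψ) with hW
  set d' : PowerSeries R := -(PowerSeries.C ((r : R) ^ (K - 1) * m) * (φ1 * psV r φ1)) +
    PowerSeries.C (lam ^ (a - t)) * W with hd'
  have hid : φ2 * τ1 - φ1 * τ2 = PowerSeries.C (lam ^ t) * d' := by
    have hrC : (PowerSeries.C (r : R) : PowerSeries R) ^ 2 - 1 =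
        PowerSeries.C lam ^ t * PowerSeries.C m := by
      rw [← map_pow, ← map_pow, ← map_mul, ← hr, map_sub, map_one]
    have hpa : lam ^ a = lam ^ t * lam ^ (a - t) := by
      rw [← pow_add]; congr 1; omega
    have hpK : (r : R) ^ (K + 1) = (r : R) ^ (K - 1) * (r : R) ^ 2 := by
      rw [← pow_add]; congr 1; omega
    rw [hτ2, hφ, psU_add, psV_add, psU_C_mul, psV_C_mul, hd', hW, hτ1, hpa, hpK]
    simp only [map_mul, map_pow]
    linear_combination (-(PowerSeries.C (r : R) ^ (K - 1) * φ1 * psV r φ1)) * hrC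
  -- divide by `λ^t`
  have hlt0 : ι (lam ^ t) ≠ 0 := by rw [map_pow]; exact pow_ne_zero _ hlam0
  set D' : ModularForm 𝒮ℒ ((2 * K + 2 : ℕ) : ℤ) := (ι (lam ^ t))⁻¹ • D with hD'
  have hD'q : qExpansion 1 D' = PowerSeries.map ι d' := by
    rw [hD', FunLike.coe_smul, ModularForm.qExpansion_smul one_pos one_mem_strictPeriods_SL, hDq,
      hid, map_mul, PowerSeries.map_C, ← PowerSeries.smul_eq_C_mul, smul_smul,
      inv_mul_cancel₀ hlt0, one_smul]
  -- reduce
  have hredd : PowerSeries.map red d' =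
      -(PowerSeries.C (red ((r : R) ^ (K - 1) * m)) *
        (PowerSeries.map red φ1 * psV r (PowerSeries.map red φ1))) := by
    have h0 : red (lam ^ (a - t)) = 0 := by
      rw [map_pow, hlam, zero_pow (by omega)]
    have e1 : PowerSeries.map red (PowerSeries.C (lam ^ (a - t)) * W) = 0 := by
      rw [map_mul (PowerSeries.map red), PowerSeries.map_C, h0, map_zero, zero_mul]
    have e2 : PowerSeries.map red (PowerSeries.C ((r : R) ^ (K - 1) * m) * (φ1 * psV r φ1)) =
        PowerSeries.C (red ((r : R) ^ (K - 1) * m)) *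
          (PowerSeries.map red φ1 * psV r (PowerSeries.map red φ1)) := by
      rw [map_mul (PowerSeries.map red), PowerSeries.map_C, map_mul (PowerSeries.map red), map_psV]
    rw [hd', map_add, map_neg, e1, e2, add_zero]
  have hc : red ((r : R) ^ (K - 1) * m) ≠ 0 := by
    rw [map_mul, map_pow]
    exact mul_ne_zero (pow_ne_zero _ hrr) hm
  set φb : PowerSeries k' := PowerSeries.map red φ1 with hφb
  have hφb0 : PowerSeries.coeff 0 φb = 0 := by
    rw [hφb, PowerSeries.coeff_map, hφ0, map_zero]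
  have hφb1 : PowerSeries.coeff 1 φb ≠ 0 := by
    rw [hφb, PowerSeries.coeff_map]; exact hφ1
  -- the order of the reduction
  have hord : (((2 * K + 2) / 12 : ℕ) : ℕ∞) < (PowerSeries.map red d').order := by
    have ho1 : (1 : ℕ∞) ≤ φb.order := by
      have := PowerSeries.nat_le_order φb 1 (fun i hi => by
        obtain rfl : i = 0 := by omega
        exact hφb0)
      exact_mod_cast this
    have ho2 : (r : ℕ∞) ≤ (psV r φb).order := le_order_psV hr0 φb hφb0
    have ho3 : ((1 + r : ℕ) : ℕ∞) ≤ (PowerSeries.map red d').order := by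
      rw [hredd, PowerSeries.order_neg, PowerSeries.order_mul, PowerSeries.order_mul]
      push_cast
      calc (1 : ℕ∞) + r ≤ φb.order + (psV r φb).order := add_le_add ho1 ho2
        _ ≤ _ := le_add_self
    refine lt_of_lt_of_le ?_ ho3
    have : (2 * K + 2) / 12 < 1 + r := by
      rw [Nat.div_lt_iff_lt_mul (by norm_num)]
      omega
    exact_mod_cast this
  have hzero := sturm_mod ι hι red D' d' hD'q hord
  rw [hredd, neg_eq_zero] at hzero
  rcases mul_eq_zero.mp hzero with h | h
  · rw [← map_zero (PowerSeries.C (R := k')), (PowerSeries.C_injective).eq_iff] at h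
    exact hc h
  · rcases mul_eq_zero.mp h with h | h
    · rw [h, map_zero] at hφb1
      exact hφb1 rfl
    · rw [eq_zero_of_psV_eq_zero hr0 h, map_zero] at hφb1
      exact hφb1 rfl

end Abstract

end Fermat.Agent.Eis
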