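import Mathlib
import Fermat.Agent.Lib.Igusa.GaussRing
import Fermat.Agent.Lib.Eis.Upper.WeightTrick

/-!
# P11 (S16), package C: `ℤ_(ℓ)`-integral `q`-expansions, the form `Δ`, and `τ(p²) = τ(p)² - p¹¹`
-/

set_option autoImplicit false

open scoped MatrixGroups ModularForm
open UpperHalfPlane ModularForm PowerSeries ModularFormClass Fermat.Agent.Igusa

namespace Fermat.Agent.Eis

local notation "Δ" => ModularForm.discriminant

section Zl

variable (l : ℕ) [hlF : Fact l.Prime]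

set_option quotPrecheck false in
local notation "ℤℓ" => ↥(GaloisRep.ratLocalizedAt l)

/-- the inclusion `ℤ_(ℓ) → ℂ` -/
noncomputable def zlIota : ℤℓ →+* ℂ :=
  (algebraMap ℚ ℂ).comp (GaloisRep.ratLocalizedAt l).subtype

omit hlF in
theorem zlIota_injective : Function.Injective (zlIota l) :=
  (algebraMap ℚ ℂ).injective.comp Subtype.coe_injective

omit hlF in
theorem zlIota_apply (x : ℤℓ) : zlIota l x = ((x : ℚ) : ℂ) := rfl

theorem zlRed_natCast_self : zlRed l ((l : ℕ) : ℤℓ) = 0 := by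
  rw [map_natCast]
  exact ZMod.natCast_self l

omit hlF in
theorem zlIota_natCast_ne_zero {n : ℕ} (hn : n ≠ 0) : zlIota l ((n : ℕ) : ℤℓ) ≠ 0 := by
  rw [map_natCast]
  exact_mod_cast hn

/-- the inverse of a natural number prime to `ℓ` -/
noncomputable def zlInv (n : ℕ) (hn : n.Coprime l) : ℤℓ :=
  ⟨(n : ℚ)⁻¹, by
    rw [mem_ratLocalizedAt_iff]
    have h1 : ((n : ℚ)⁻¹).den ∣ n := by
      have := Rat.den_dvd 1 (n : ℤ)
      rw [Rat.divInt_eq_div] at this
      simp only [Int.cast_one, one_div, Int.cast_natCast] at this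
      exact_mod_cast this
    exact Nat.Coprime.coprime_dvd_left h1 hn⟩

omit hlF in
theorem natCast_mul_zlInv (n : ℕ) (hn0 : n ≠ 0) (hn : n.Coprime l) :
    ((n : ℕ) : ℤℓ) * zlInv l n hn = 1 := by
  apply Subtype.ext
  rw [Subring.coe_mul, Subring.coe_one]
  show ((n : ℤℓ) : ℚ) * (n : ℚ)⁻¹ = 1
  rw [show ((n : ℤℓ) : ℚ) = (n : ℚ) by simp]
  exact mul_inv_cancel₀ (by exact_mod_cast hn0)

omit hlF in
theorem zlIota_zlInv (n : ℕ) (hn : n.Coprime l) : zlIota l (zlInv l n hn) = ((n : ℂ))⁻¹ := by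
  rw [zlIota_apply]
  show (((n : ℚ)⁻¹ : ℚ) : ℂ) = _
  push_cast
  rfl

/-- divisibility by `ℓ^a` of an integer can be tested in `ℤ_(ℓ)` -/
theorem int_dvd_of_zl_dvd {a : ℕ} {n : ℤ} (h : ((l : ℕ) : ℤℓ) ^ a ∣ ((n : ℤ) : ℤℓ)) :
    (l : ℤ) ^ a ∣ n := by
  obtain ⟨x, hx⟩ := h
  have hq : (n : ℚ) = (l : ℚ) ^ a * (x : ℚ) := by
    have := congrArg (fun y : ℤℓ => (y : ℚ)) hx
    simpa using this
  have hden : (x : ℚ).den.Coprime l := x.2
  have h1 : (n : ℚ) * ((x : ℚ).den : ℚ) = (l : ℚ) ^ a * ((x : ℚ).num : ℚ) := by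
    rw [hq, mul_assoc, Rat.mul_den_eq_num]
  have h2 : n * ((x : ℚ).den : ℤ) = (l : ℤ) ^ a * (x : ℚ).num := by exact_mod_cast h1
  have hcop : IsCoprime ((l : ℤ) ^ a) ((x : ℚ).den : ℤ) := by
    apply IsCoprime.pow_left
    rw [Int.isCoprime_iff_gcd_eq_one, Int.gcd_natCast_natCast, Nat.gcd_comm]
    exact hden
  exact hcop.dvd_of_dvd_mul_right ⟨_, h2⟩

end Zl

/-! ### `Δ` as a modular form, and the Hecke relation for `τ` -/

/-- `Δ` as a modular form of weight 12 -/
noncomputable def deltaMF : ModularForm 𝒮ℒ 12 := CuspForm.toModularFormₗ CuspForm.discriminant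

theorem coe_deltaMF : ⇑deltaMF = (Δ : ℍ → ℂ) := rfl

/-- the integral `q`-expansion `q ∏ (1 - qⁿ)²⁴` of `Δ` -/
noncomputable def deltaZ : PowerSeries ℤ := PowerSeries.X * ModularCurve.dedekindEtaUnit

theorem qExpansion_deltaMF :
    qExpansion 1 deltaMF = PowerSeries.map (Int.castRingHom ℂ) deltaZ := by
  rw [coe_deltaMF, Fermat.Agent.S24Lib.qExpansion_discriminant, deltaZ, map_mul, PowerSeries.map_X]

theorem coeff_zero_deltaZ : PowerSeries.coeff 0 deltaZ = 0 := by
  rw [deltaZ, PowerSeries.coeff_zero_X_mul]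

theorem coeff_one_deltaZ : PowerSeries.coeff 1 deltaZ = 1 := by
  rw [deltaZ, show (1 : ℕ) = 0 + 1 by rfl, PowerSeries.coeff_succ_X_mul,
    PowerSeries.coeff_zero_eq_constantCoeff_apply, ModularCurve.constantCoeff_dedekindEtaUnit]

/-- **`τ(p²) = τ(p)² - p¹¹`** -/
theorem coeff_deltaZ_sq (p : ℕ) [hpF : Fact p.Prime] :
    PowerSeries.coeff (p * p) deltaZ = (PowerSeries.coeff p deltaZ) ^ 2 - (p : ℤ) ^ 11 := by
  have hp := hpF.out
  have hT := qExpansion_levelOneHeckeT_map (Int.castRingHom ℂ) p (K := 12) (by norm_num)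
    (by norm_num) deltaMF deltaZ qExpansion_deltaMF
  rw [show 12 - 1 = 11 by norm_num] at hT
  set T := levelOneHeckeT p deltaMF with hTdef
  have h0 : (qExpansion 1 T).coeff 0 = 0 := by
    rw [hT, PowerSeries.coeff_map, map_add, PowerSeries.coeff_C_mul, coeff_zero_psU,
      coeff_zero_psV, coeff_zero_deltaZ]
    simp
  obtain ⟨c, hc⟩ := CuspForm.exists_smul_discriminant_of_weight_eq_twelve
    (ModularForm.toCuspForm T h0)
  have hq : qExpansion 1 T = c • PowerSeries.map (Int.castRingHom ℂ) deltaZ := by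
    have h1 : (⇑T : ℍ → ℂ) = c • ⇑deltaMF := by
      have := congrArg (fun f : CuspForm 𝒮ℒ 12 => (⇑f : ℍ → ℂ)) hc
      exact this.symm
    rw [h1, ModularForm.qExpansion_smul one_pos one_mem_strictPeriods_SL, qExpansion_deltaMF]
  rw [hT] at hq
  have hnd : ¬ p ∣ 1 := by
    intro h
    have := Nat.le_of_dvd one_pos h
    have := hp.two_le
    omega
  have e1 := congrArg (PowerSeries.coeff 1) hq
  rw [PowerSeries.coeff_map, map_add, PowerSeries.coeff_C_mul, coeff_psU,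
    coeff_psV_of_not_dvd hnd, mul_zero, add_zero, one_mul, PowerSeries.coeff_smul,
    PowerSeries.coeff_map, coeff_one_deltaZ] at e1
  have hV : PowerSeries.coeff p (psV p deltaZ) = PowerSeries.coeff 1 deltaZ := by
    have := coeff_psV_mul hp.ne_zero 1 deltaZ
    rwa [one_mul] at this
  have e2 := congrArg (PowerSeries.coeff p) hq
  rw [PowerSeries.coeff_map, map_add, PowerSeries.coeff_C_mul, coeff_psU,
    hV, coeff_one_deltaZ,
    PowerSeries.coeff_smul, PowerSeries.coeff_map] at e2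
  simp only [eq_intCast, Int.cast_one, smul_eq_mul, mul_one, Int.cast_add, Int.cast_mul,
    Int.cast_pow, Int.cast_natCast] at e1 e2
  have e3 : ((PowerSeries.coeff (p * p) deltaZ : ℤ) : ℂ) =
      (((PowerSeries.coeff p deltaZ) ^ 2 - (p : ℤ) ^ 11 : ℤ) : ℂ) := by
    push_cast
    rw [← e1] at e2
    linear_combination e2
  exact_mod_cast e3

end Fermat.Agent.Eis
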