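import Mathlib
import Fermat.Agent.Lib.Eis.Upper.Zl

/-!
# P11 (S16), package C: weight 2 forms on `Γ₀(p)` congruent to `1` modulo `ℓ^a`

`HasUnitForm p ℓ a`: there is `G ∈ M₂(Γ₀(p))` with `ℓ`-integral `q`-expansion `≡ 1 mod ℓ^a`.

* Step A (`HasUnitForm.dvd_succ`): for `ℓ ≠ p` this forces `ℓ^a ∣ p + 1`
  (`Tr (G · V_p Δ) ∈ S₁₄(SL(2, ℤ)) = 0`);
* Step B (`HasUnitForm.false_of_primes`): it is impossible as soon as there are arbitrarily large
  primes `r` with `v_ℓ(r² - 1) < a` (weight trick applied to `Tr (V_p Δ^p)`, `Tr (G · V_p Δ^p)`).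
-/

set_option autoImplicit false

open scoped MatrixGroups ModularForm
open UpperHalfPlane ModularForm PowerSeries ModularFormClass Fermat.Agent.Igusa CongruenceSubgroup
  Matrix.SpecialLinearGroup

namespace Fermat.Agent.Eis

variable (p : ℕ) [hpF : Fact p.Prime] (l : ℕ) [hlF : Fact l.Prime]

local notation "Γ₀'" => (Subgroup.map (mapGL ℝ) (Gamma0 p))

set_option quotPrecheck false in
local notation "ℤℓ" => ↥(GaloisRep.ratLocalizedAt l)

/-- there is a weight 2 form on `Γ₀(p)` with `ℓ`-integral `q`-expansion `≡ 1 mod ℓ^a` -/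
def HasUnitForm (a : ℕ) : Prop :=
  ∃ (G : ModularForm Γ₀' 2) (h : PowerSeries ℤℓ),
    qExpansion 1 G =
      PowerSeries.map (zlIota l) (1 + PowerSeries.C (((l : ℕ) : ℤℓ) ^ a) * h)

omit hpF hlF in
theorem HasUnitForm.mono {a b : ℕ} (hba : b ≤ a) (h : HasUnitForm p l a) : HasUnitForm p l b := by
  obtain ⟨G, h, hG⟩ := h
  refine ⟨G, PowerSeries.C (((l : ℕ) : ℤℓ) ^ (a - b)) * h, ?_⟩
  rw [hG, ← mul_assoc, ← map_mul, ← pow_add, Nat.add_sub_cancel' hba]

/-- the `ℓ`-integral `q`-expansion of `Δ` -/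
noncomputable def deltaL : PowerSeries ℤℓ := PowerSeries.map (Int.castRingHom ℤℓ) deltaZ

omit hlF in
theorem qExpansion_deltaMF_zl :
    qExpansion 1 deltaMF = PowerSeries.map (zlIota l) (deltaL l) := by
  rw [deltaL, map_map_intCast, qExpansion_deltaMF]

omit hlF in
theorem coeff_zero_deltaL : PowerSeries.coeff 0 (deltaL l) = 0 := by
  rw [deltaL, PowerSeries.coeff_map, coeff_zero_deltaZ, map_zero]

omit hlF in
theorem coeff_one_deltaL : PowerSeries.coeff 1 (deltaL l) = 1 := by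
  rw [deltaL, PowerSeries.coeff_map, coeff_one_deltaZ, map_one]

/-- **Step A.** -/
theorem HasUnitForm.dvd_succ (hpl : p ≠ l) {a : ℕ} (h : HasUnitForm p l a) : l ^ a ∣ p + 1 := by
  have hp := hpF.out
  have hl := hlF.out
  obtain ⟨G, h, hG⟩ := h
  have hcop : p.Coprime l := (Nat.coprime_primes hp hl).mpr hpl
  set Q : ℤℓ := zlInv l p hcop with hQ
  set P : ℤℓ := ((p : ℕ) : ℤℓ) with hP
  set L : ℤℓ := ((l : ℕ) : ℤℓ) ^ a with hL
  have hPQ : P * Q = 1 := natCast_mul_zlInv l p hp.ne_zero hcop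
  set g : PowerSeries ℤℓ := 1 + PowerSeries.C L * h with hg
  set Φ : PowerSeries ℤℓ := deltaL l with hΦ
  obtain ⟨T, hT⟩ := exists_trace_mul_psV p 12 G deltaMF
  have hpow : (p : ℂ) ^ (-(12 : ℤ)) = zlIota l (Q ^ 12) := by
    rw [map_pow, hQ, zlIota_zlInv, inv_pow, zpow_neg]
    norm_cast
  have hT' : qExpansion 1 T = PowerSeries.map (zlIota l)
      (g * psV p Φ - PowerSeries.C (Q ^ 12) * psU p (Φ * psU p g)) := by
    rw [hT, hG, qExpansion_deltaMF_zl l, hpow, map_sub, map_mul, map_mul, PowerSeries.map_C,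
      map_psV, map_psU, map_mul, map_psU, PowerSeries.smul_eq_C_mul]
  -- `T = 0`
  have h0 : (qExpansion 1 T).coeff 0 = 0 := by
    rw [hT', PowerSeries.coeff_map, map_sub, PowerSeries.coeff_C_mul, coeff_zero_psU,
      PowerSeries.coeff_zero_eq_constantCoeff_apply, PowerSeries.coeff_zero_eq_constantCoeff_apply,
      map_mul, map_mul, ← PowerSeries.coeff_zero_eq_constantCoeff_apply (φ := psV p Φ),
      coeff_zero_psV, ← PowerSeries.coeff_zero_eq_constantCoeff_apply (φ := Φ), hΦ,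
      coeff_zero_deltaL]
    simp
  have hTz : qExpansion 1 T = 0 := by
    have hfac := ModularForm.qExpansion_eq_qExpansion_discriminant_mul T h0
    set T' := CuspForm.discriminantEquiv (ModularForm.toCuspForm T h0) with hT''
    have hz : ModularForm.mcast (by norm_num : (12 : ℤ) + 2 - 12 = 2) T' = 0 :=
      levelOne_weight_two_eq_zero _
    have hz' : qExpansion 1 T' = 0 := by
      rw [← ModularForm.qExpansion_mcast (by norm_num : (12 : ℤ) + 2 - 12 = 2) rfl T', hz,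
        FunLike.coe_zero, qExpansion_zero]
    rw [hfac, hz', mul_zero]
  have hmain : g * psV p Φ = PowerSeries.C (Q ^ 12) * psU p (Φ * psU p g) := by
    have := eq_zero_of_map_eq_zero (zlIota l) (zlIota_injective l) _ (hT'.symm.trans hTz)
    exact sub_eq_zero.mp this
  -- expand `g = 1 + L h`
  set Y : PowerSeries ℤℓ := -(h * psV p Φ) + PowerSeries.C (Q ^ 12) * psU p (Φ * psU p h) with hY
  have hYeq : psV p Φ - PowerSeries.C (Q ^ 12) * psU p Φ = PowerSeries.C L * Y := by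
    have e1 : psU p g = 1 + PowerSeries.C L * psU p h := by
      rw [hg, psU_add, psU_one hp.ne_zero, psU_C_mul]
    have e2 : psU p (Φ * psU p g) = psU p Φ + PowerSeries.C L * psU p (Φ * psU p h) := by
      rw [e1, mul_add, mul_one, psU_add, mul_left_comm, psU_C_mul]
    rw [e2, hg] at hmain
    rw [hY]
    linear_combination hmain
  -- coefficients of `q` and `q^p`
  have hnd : ¬ p ∣ 1 := by
    intro h
    have := Nat.le_of_dvd one_pos h
    have := hp.two_le
    omega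
  set τ : ℤℓ := PowerSeries.coeff p Φ with hτ
  have hτZ : τ = ((PowerSeries.coeff p deltaZ : ℤ) : ℤℓ) := by
    rw [hτ, hΦ, deltaL, PowerSeries.coeff_map]; rfl
  have hττ : PowerSeries.coeff (p * p) Φ = τ ^ 2 - P ^ 11 := by
    rw [hτZ, hΦ, deltaL, PowerSeries.coeff_map, coeff_deltaZ_sq p]
    simp [hP]
  have E1 : -(Q ^ 12 * τ) = L * PowerSeries.coeff 1 Y := by
    have := congrArg (PowerSeries.coeff 1) hYeq
    rw [map_sub, coeff_psV_of_not_dvd hnd, PowerSeries.coeff_C_mul, coeff_psU, one_mul,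
      PowerSeries.coeff_C_mul, zero_sub] at this
    exact this
  have hV : PowerSeries.coeff p (psV p Φ) = 1 := by
    have := coeff_psV_mul hp.ne_zero 1 Φ
    rwa [one_mul, hΦ, coeff_one_deltaL] at this
  have E2 : 1 - Q ^ 12 * (τ ^ 2 - P ^ 11) = L * PowerSeries.coeff p Y := by
    have := congrArg (PowerSeries.coeff p) hYeq
    rw [map_sub, hV, PowerSeries.coeff_C_mul, coeff_psU, hττ, PowerSeries.coeff_C_mul] at this
    exact this
  set Y1 := PowerSeries.coeff 1 Y
  set Yp := PowerSeries.coeff p Y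
  have h12 : P ^ 12 * Q ^ 12 = 1 := by rw [← mul_pow, hPQ, one_pow]
  have h11 : P ^ 11 * Q ^ 11 = 1 := by rw [← mul_pow, hPQ, one_pow]
  have hτ' : τ + P ^ 12 * L * Y1 = 0 := by
    linear_combination (-(P ^ 12)) * E1 - τ * h12
  have hA : P ^ 11 * (P + 1) - P ^ 24 * L ^ 2 * Y1 ^ 2 - P ^ 12 * L * Yp = 0 := by
    linear_combination (P ^ 12) * E2 + (τ ^ 2 - P ^ 11) * h12 + (τ - P ^ 12 * L * Y1) * hτ'
  have hfin : P + 1 = L * (P * Yp + L * P ^ 13 * Y1 ^ 2) := by
    linear_combination Q ^ 11 * hA - (P + 1 - L * (P * Yp + L * P ^ 13 * Y1 ^ 2)) * h11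
  have hdvd : ((l : ℕ) : ℤℓ) ^ a ∣ (((p + 1 : ℕ) : ℤ) : ℤℓ) := by
    refine ⟨P * Yp + L * P ^ 13 * Y1 ^ 2, ?_⟩
    rw [← hL, ← hfin, hP]
    push_cast
    rfl
  have := int_dvd_of_zl_dvd l hdvd
  exact_mod_cast this

end Fermat.Agent.Eis
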