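import Mathlib
import Fermat.Agent.Lib.Eis.Upper.UnitForm

/-!
# P11 (S16), package C, Step B: `HasUnitForm p ℓ a` is impossible for large `a`
-/

set_option autoImplicit false

open scoped MatrixGroups ModularForm
open UpperHalfPlane ModularForm PowerSeries ModularFormClass Fermat.Agent.Igusa CongruenceSubgroup
  Matrix.SpecialLinearGroup

namespace Fermat.Agent.Eis

variable (p : ℕ) [hpF : Fact p.Prime] (l : ℕ) [hlF : Fact l.Prime]

local notation "Γ₀'" => (Subgroup.map (mapGL ℝ) (Gamma0 p))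

set_option quotPrecheck false in
local notation "ℤℓ" => ↥(GaloisRep.ratLocalizedAt l)

/-! ### Step B -/

/-- `Δ^p` as a modular form of weight `12 p` -/
noncomputable def deltaPow : ModularForm 𝒮ℒ ((12 * p : ℕ) : ℤ) :=
  ModularForm.mcast (by push_cast; ring) (deltaMF.pow p)

omit hpF hlF in
theorem qExpansion_deltaPow :
    qExpansion 1 (deltaPow p) = PowerSeries.map (zlIota l) (deltaL l ^ p) := by
  rw [deltaPow, ModularForm.qExpansion_mcast,
    ModularForm.qExpansion_pow one_pos one_mem_strictPeriods_SL, qExpansion_deltaMF_zl l, map_pow]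

omit hlF in
theorem coeff_zero_deltaL_pow : PowerSeries.coeff 0 (deltaL l ^ p) = 0 := by
  rw [PowerSeries.coeff_zero_eq_constantCoeff_apply, map_pow,
    ← PowerSeries.coeff_zero_eq_constantCoeff_apply, coeff_zero_deltaL,
    zero_pow hpF.out.ne_zero]

omit hpF hlF in
theorem coeff_deltaL_pow_self : PowerSeries.coeff p (deltaL l ^ p) = 1 := by
  have h1 : deltaL l = PowerSeries.X *
      PowerSeries.map (Int.castRingHom ℤℓ) ModularCurve.dedekindEtaUnit := by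
    rw [deltaL, deltaZ, map_mul, PowerSeries.map_X]
  rw [h1, mul_pow]
  have := PowerSeries.coeff_X_pow_mul
    ((PowerSeries.map (Int.castRingHom ℤℓ) ModularCurve.dedekindEtaUnit) ^ p) p 0
  rw [zero_add] at this
  rw [this, PowerSeries.coeff_zero_eq_constantCoeff_apply, map_pow,
    ← PowerSeries.coeff_zero_eq_constantCoeff_apply, PowerSeries.coeff_map,
    PowerSeries.coeff_zero_eq_constantCoeff_apply, ModularCurve.constantCoeff_dedekindEtaUnit,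
    map_one, one_pow]

omit hpF in
theorem zlRed_intCast_ne_zero {m : ℤ} (hm : ¬ (l : ℤ) ∣ m) : zlRed l ((m : ℤ) : ℤℓ) ≠ 0 := by
  rw [map_intCast, Ne, ZMod.intCast_zmod_eq_zero_iff_dvd]
  exact hm

omit hpF in
theorem zlRed_natCast_ne_zero {r : ℕ} (hr : r.Prime) (hrl : r ≠ l) :
    zlRed l ((r : ℕ) : ℤℓ) ≠ 0 := by
  rw [map_natCast, Ne, ZMod.natCast_eq_zero_iff]
  intro h
  exact hrl ((Nat.prime_dvd_prime_iff_eq hlF.out hr).mp h).symm

/-- **Step B.** -/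
theorem HasUnitForm.false_of_primes {a t : ℕ} (hta : t < a) (ha : a + 1 ≤ 12 * p)
    (hex : ∀ N : ℕ, ∃ r : ℕ, N < r ∧ r.Prime ∧ r ≠ l ∧
      ∃ m : ℤ, (r : ℤ) ^ 2 - 1 = (l : ℤ) ^ t * m ∧ ¬ (l : ℤ) ∣ m)
    (h : HasUnitForm p l a) : False := by
  have hp := hpF.out
  have hl := hlF.out
  have hUF := h
  obtain ⟨G, h, hG⟩ := h
  obtain ⟨r, hrN, hrp, hrl, m, hrm, hm⟩ := hex (2 * p)
  haveI : Fact r.Prime := ⟨hrp⟩
  set K : ℕ := 12 * p with hK
  have hK1 : 1 ≤ K := by have := hp.two_le; omega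
  have hbig : 2 * K + 2 < 12 * (1 + r) := by omega
  obtain ⟨L, hL⟩ : ∃ L : ℤℓ, L = ((l : ℕ) : ℤℓ) ^ a := ⟨_, rfl⟩
  obtain ⟨g, hg⟩ : ∃ g : PowerSeries ℤℓ, g = 1 + PowerSeries.C L * h := ⟨_, rfl⟩
  rw [← hL, ← hg] at hG
  obtain ⟨Φ, hΦ⟩ : ∃ Φ : PowerSeries ℤℓ, Φ = deltaL l ^ p := ⟨_, rfl⟩
  have hΦ0 : PowerSeries.coeff 0 Φ = 0 := by rw [hΦ]; exact coeff_zero_deltaL_pow p l
  have hΦp : PowerSeries.coeff p Φ = 1 := by rw [hΦ]; exact coeff_deltaL_pow_self p l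
  have hFq : qExpansion 1 (deltaPow p) = PowerSeries.map (zlIota l) Φ := by
    rw [hΦ]; exact qExpansion_deltaPow p l
  obtain ⟨T1, hT1⟩ := exists_trace_psV p ((K : ℕ) : ℤ) (deltaPow p)
  obtain ⟨T2, hT2⟩ := exists_trace_mul_psV p ((K : ℕ) : ℤ) G (deltaPow p)
  rw [hFq] at hT1 hT2
  rw [hG] at hT2
  have hnd : ¬ p ∣ 1 := by
    intro h
    have := Nat.le_of_dvd one_pos h
    have := hp.two_le
    omega
  have hr : (((r : ℕ) : ℤℓ)) ^ 2 - 1 = ((l : ℕ) : ℤℓ) ^ t * ((m : ℤ) : ℤℓ) := by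
    have := congrArg (Int.cast : ℤ → ℤℓ) hrm
    push_cast at this
    exact this
  have hmr : zlRed l ((m : ℤ) : ℤℓ) ≠ 0 := zlRed_intCast_ne_zero l hm
  have hrr : zlRed l ((r : ℕ) : ℤℓ) ≠ 0 := zlRed_natCast_ne_zero l hrp hrl
  have hlam : zlRed l ((l : ℕ) : ℤℓ) = 0 := zlRed_natCast_self l
  have hlam0 : zlIota l ((l : ℕ) : ℤℓ) ≠ 0 := zlIota_natCast_ne_zero l hl.ne_zero
  have e1 : psU p g = 1 + PowerSeries.C L * psU p h := by
    rw [hg, psU_add, psU_one hp.ne_zero, psU_C_mul]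
  have e2 : psU p (Φ * psU p g) = psU p Φ + PowerSeries.C L * psU p (Φ * psU p h) := by
    rw [e1, mul_add, mul_one, psU_add, mul_left_comm, psU_C_mul]
  have hp0 : (p : ℂ) ≠ 0 := by exact_mod_cast hp.ne_zero
  by_cases hpl : p = l
  · -- `ℓ = p`
    obtain ⟨P, hP⟩ : ∃ P : ℤℓ, P = ((l : ℕ) : ℤℓ) := ⟨_, rfl⟩
    rw [← hP] at hL hr hlam hlam0
    have hιP : zlIota l P = (p : ℂ) := by rw [hP, map_natCast, hpl]
    obtain ⟨φ1, hφ1⟩ : ∃ φ1 : PowerSeries ℤℓ,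
      φ1 = PowerSeries.C (P ^ (K - 1)) * psV p Φ + psU p Φ := ⟨_, rfl⟩
    obtain ⟨φ2, hφ2⟩ : ∃ φ2 : PowerSeries ℤℓ,
      φ2 = -(PowerSeries.C (P ^ K) * (g * psV p Φ)) + psU p (Φ * psU p g) := ⟨_, rfl⟩
    obtain ⟨ψ, hψ⟩ : ∃ ψ : PowerSeries ℤℓ,
      ψ = -(PowerSeries.C (P ^ (K - 1 - a)) * ((PowerSeries.C P * g + 1) * psV p Φ)) +
        psU p (Φ * psU p h) := ⟨_, rfl⟩
    have hc1 : (p : ℂ) ^ (K - 1) * (p : ℂ) ^ (1 - (K : ℤ)) = 1 := by
      rw [← zpow_natCast, ← zpow_add₀ hp0, Nat.cast_sub hK1]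
      simp
    have hc2 : (p : ℂ) ^ K * (p : ℂ) ^ (-(K : ℤ)) = 1 := by
      rw [← zpow_natCast, ← zpow_add₀ hp0]
      simp
    have h1 : qExpansion 1 (((p : ℂ) ^ (K - 1)) • T1) = PowerSeries.map (zlIota l) φ1 := by
      rw [ModularForm.qExpansion_smul one_pos one_mem_strictPeriods_SL, hT1,
        smul_add, smul_smul, hc1, one_smul, hφ1, map_add, map_mul, PowerSeries.map_C, map_psV,
        map_psU, map_pow (zlIota l) P, hιP, PowerSeries.smul_eq_C_mul]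
    have h2 : qExpansion 1 ((-((p : ℂ) ^ K)) • T2) = PowerSeries.map (zlIota l) φ2 := by
      rw [ModularForm.qExpansion_smul one_pos one_mem_strictPeriods_SL, hT2,
        smul_sub, smul_smul, neg_mul, hc2, _root_.neg_smul, _root_.neg_smul, one_smul,
        sub_neg_eq_add, hφ2, map_add,
        map_neg, map_mul, PowerSeries.map_C, map_mul, map_psV, map_psU, map_mul, map_psU,
        map_pow (zlIota l) P, hιP, PowerSeries.smul_eq_C_mul]
    have hφ : φ2 = φ1 + PowerSeries.C (P ^ a) * ψ := by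
      have hpa : P ^ (K - 1) = P ^ a * P ^ (K - 1 - a) := by
        rw [← pow_add]; congr 1; omega
      have hpK : P ^ K = P ^ (K - 1) * P := by
        rw [← pow_succ]; congr 1; omega
      rw [hφ2, hφ1, hψ, e2, hpK, hpa, hg, hL]
      simp only [map_mul, map_pow]
      ring
    have hφ0 : PowerSeries.coeff 0 φ1 = 0 := by
      rw [hφ1, map_add, PowerSeries.coeff_C_mul, coeff_zero_psV, coeff_zero_psU, hΦ0, mul_zero,
        add_zero]
    have hφ1' : zlRed l (PowerSeries.coeff 1 φ1) ≠ 0 := by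
      rw [hφ1, map_add, PowerSeries.coeff_C_mul, coeff_psV_of_not_dvd hnd, mul_zero, zero_add,
        coeff_psU, one_mul, hΦp, map_one]
      exact one_ne_zero
    exact weight_trick (zlIota l) (zlIota_injective l) (zlRed l) P hlam hlam0 hK1
      (((p : ℂ) ^ (K - 1)) • T1) ((-((p : ℂ) ^ K)) • T2) φ1 φ2 ψ h1 h2
      hta hφ r _ hr hmr hrr hφ0 hφ1' hbig
  · -- `ℓ ≠ p`
    have hcop : p.Coprime l := (Nat.coprime_primes hp hl).mpr hpl
    obtain ⟨Q, hQ⟩ : ∃ Q : ℤℓ, Q = zlInv l p hcop := ⟨_, rfl⟩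
    obtain ⟨P, hP⟩ : ∃ P : ℤℓ, P = ((p : ℕ) : ℤℓ) := ⟨_, rfl⟩
    have hPQ : P * Q = 1 := by rw [hP, hQ]; exact natCast_mul_zlInv l p hp.ne_zero hcop
    have hιQ : zlIota l Q = (p : ℂ)⁻¹ := by rw [hQ]; exact zlIota_zlInv l p hcop
    obtain ⟨μ, hμ⟩ := hUF.dvd_succ p l hpl
    have hμ' : P + 1 = L * ((μ : ℕ) : ℤℓ) := by
      have := congrArg (Nat.cast : ℕ → ℤℓ) hμ
      push_cast at this
      rw [hP, hL]
      exact this
    obtain ⟨φ1, hφ1⟩ : ∃ φ1 : PowerSeries ℤℓ,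
      φ1 = psV p Φ + PowerSeries.C (Q ^ (K - 1)) * psU p Φ := ⟨_, rfl⟩
    obtain ⟨φ2, hφ2⟩ : ∃ φ2 : PowerSeries ℤℓ,
      φ2 = g * psV p Φ - PowerSeries.C (Q ^ K) * psU p (Φ * psU p g) := ⟨_, rfl⟩
    obtain ⟨ψ, hψ⟩ : ∃ ψ : PowerSeries ℤℓ,
      ψ = -(PowerSeries.C (Q ^ K * ((μ : ℕ) : ℤℓ)) * psU p Φ) + h * psV p Φ -
        PowerSeries.C (Q ^ K) * psU p (Φ * psU p h) := ⟨_, rfl⟩
    have hc1 : (p : ℂ) ^ (1 - (K : ℤ)) = zlIota l (Q ^ (K - 1)) := by
      rw [map_pow, hιQ, inv_pow, ← zpow_natCast, ← zpow_neg, Nat.cast_sub hK1]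
      congr 1
      push_cast
      ring
    have hc2 : (p : ℂ) ^ (-(K : ℤ)) = zlIota l (Q ^ K) := by
      rw [map_pow, hιQ, inv_pow, zpow_neg, zpow_natCast]
    have h1 : qExpansion 1 T1 = PowerSeries.map (zlIota l) φ1 := by
      rw [hT1, hc1, hφ1, map_add, map_mul, PowerSeries.map_C, map_psV, map_psU,
        PowerSeries.smul_eq_C_mul]
    have h2 : qExpansion 1 T2 = PowerSeries.map (zlIota l) φ2 := by
      rw [hT2, hc2, hφ2, map_sub, map_mul, map_mul, PowerSeries.map_C, map_psV, map_psU, map_mul,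
        map_psU, PowerSeries.smul_eq_C_mul]
    have hφ : φ2 = φ1 + PowerSeries.C L * ψ := by
      have hpK : Q ^ K = Q ^ (K - 1) * Q := by
        rw [← pow_succ]; congr 1; omega
      have hPQ' : (PowerSeries.C P : PowerSeries ℤℓ) * PowerSeries.C Q = 1 := by
        rw [← map_mul, hPQ, map_one]
      have hμ'' : (PowerSeries.C P : PowerSeries ℤℓ) + 1 =
          PowerSeries.C L * PowerSeries.C ((μ : ℕ) : ℤℓ) := by
        rw [← map_mul, ← hμ', map_add, map_one]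
      rw [hφ2, hφ1, hψ, e2, hpK, hg]
      simp only [map_mul, map_pow]
      linear_combination (PowerSeries.C Q ^ (K - 1) * psU p Φ) * hPQ' -
        (PowerSeries.C Q ^ (K - 1) * psU p Φ * PowerSeries.C Q) * hμ''
    have hφ0 : PowerSeries.coeff 0 φ1 = 0 := by
      rw [hφ1, map_add, PowerSeries.coeff_C_mul, coeff_zero_psV, coeff_zero_psU, hΦ0, mul_zero,
        add_zero]
    have hφ1' : zlRed l (PowerSeries.coeff 1 φ1) ≠ 0 := by
      rw [hφ1, map_add, PowerSeries.coeff_C_mul, coeff_psV_of_not_dvd hnd, zero_add,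
        coeff_psU, one_mul, hΦp, mul_one]
      intro h0
      have h3 : zlRed l (P ^ (K - 1)) * zlRed l (Q ^ (K - 1)) = 1 := by
        rw [← map_mul, ← mul_pow, hPQ, one_pow, map_one]
      rw [h0, mul_zero] at h3
      exact zero_ne_one h3
    rw [hL] at hφ
    exact weight_trick (zlIota l) (zlIota_injective l) (zlRed l) _ hlam hlam0 hK1 T1 T2 φ1 φ2 ψ
      h1 h2 hta hφ r _ hr hmr hrr hφ0 hφ1' hbig

end Fermat.Agent.Eis
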