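import Mathlib
import Fermat.Agent.Lib.Eis.Upper.UnitFormB
import Fermat.Agent.Lib.Eis.Level.EisForm
import Fermat.Agent.Lib.Eis.Defs
import Fermat.Prelude.Def_ModularCurve_ModularUnit

/-!
# P11 (S16), package C: the upper bound

If a cusp form `f ∈ S₂(Γ₀(p))` is congruent to the Eisenstein series modulo `ℓ^s`, then
`ℓ^s ∣ n_p = (p - 1)/gcd(p - 1, 12)`, except possibly for `ℓ^s = 2`, `p ≡ 7 mod 8`.
-/

set_option autoImplicit false

open scoped MatrixGroups ModularForm
open UpperHalfPlane ModularForm PowerSeries ModularFormClass Fermat.Agent.Igusa CongruenceSubgroup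
  Matrix.SpecialLinearGroup

namespace Fermat.Agent.Eis

variable (p : ℕ) [hpF : Fact p.Prime] (l : ℕ) [hlF : Fact l.Prime]

local notation "Γ₀'" => (Subgroup.map (mapGL ℝ) (Gamma0 p))

set_option quotPrecheck false in
local notation "ℤℓ" => ↥(GaloisRep.ratLocalizedAt l)

omit hlF in
/-- from an Eisenstein congruence modulo `ℓ^s` to a form `≡ 1 mod ℓ^a`,
where `ℓ^a u = 24 ℓ^s/(p - 1)` -/
theorem hasUnitForm_of_eisCong {s a : ℕ} {f : CuspForm (Gamma0 p) 2}
    (hf : EisCong p (l ^ s) f) (u : ℤℓ)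
    (hu : ((l : ℕ) : ℤℓ) ^ a * u * (((p : ℕ) : ℤℓ) - 1) = 24 * ((l : ℕ) : ℤℓ) ^ s) :
    HasUnitForm p l a := by
  have hp := hpF.out
  choose mf hm hd using hf
  choose k hk using hd
  have hp1 : ((p : ℂ) - 1) ≠ 0 := by
    intro h
    rw [sub_eq_zero] at h
    have : p = 1 := by exact_mod_cast h
    exact hp.one_lt.ne' this
  have hA : zlIota l (((l : ℕ) : ℤℓ) ^ a) * zlIota l u * ((p : ℂ) - 1) = 24 * (l : ℂ) ^ s := by
    have := congrArg (zlIota l) hu
    rw [map_mul, map_mul, map_sub, map_one, map_natCast, map_mul, map_ofNat, map_pow, map_pow,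
      map_natCast] at this
    rw [map_pow, map_natCast]
    exact this
  have hk' : ∀ n, (mf n : ℂ) - (eisCoeff p n : ℂ) = (l : ℂ) ^ s * (k n : ℂ) := by
    intro n
    have := congrArg (Int.cast : ℤ → ℂ) (hk n)
    push_cast at this
    exact this
  refine ⟨(24 / ((p : ℂ) - 1)) • (eisForm p - CuspForm.toModularFormₗ f),
    PowerSeries.mk (fun n => u * ((-(k n) : ℤ) : ℤℓ)), ?_⟩
  ext n
  have hL : (qExpansion 1 ⇑((24 / ((p : ℂ) - 1)) • (eisForm p - CuspForm.toModularFormₗ f))).coeff n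
      = (24 / ((p : ℂ) - 1)) * (qCoeff ⇑(eisForm p) n - (mf n : ℂ)) := by
    rw [FunLike.coe_smul, ModularForm.qExpansion_smul one_pos (one_mem_strictPeriods_gamma0 p),
      PowerSeries.coeff_smul, smul_eq_mul, FunLike.coe_sub,
      ModularForm.qExpansion_sub one_pos (one_mem_strictPeriods_gamma0 p), map_sub, ← hm n]
    rfl
  rw [hL, PowerSeries.coeff_map, map_add, PowerSeries.coeff_one, PowerSeries.coeff_C_mul,
    PowerSeries.coeff_mk, map_add, map_mul, map_mul, map_intCast]
  rw [div_mul_eq_mul_div, div_eq_iff hp1]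
  rcases Nat.eq_zero_or_pos n with rfl | hn
  · rw [qCoeff_eisForm_zero, if_pos rfl, map_one]
    have := hk' 0
    rw [eisCoeff_zero] at this
    push_cast at this ⊢
    linear_combination (-24 : ℂ) * this + (k 0 : ℂ) * hA
  · rw [qCoeff_eisForm p hn, if_neg (by omega), map_zero]
    have := hk' n
    push_cast
    linear_combination (-24 : ℂ) * this + (k n : ℂ) * hA

omit hlF in
theorem factorization_eq_of_pow_dvd {n e : ℕ} (hl : l.Prime) (hn : n ≠ 0) (h1 : l ^ e ∣ n)
    (h2 : ¬ l ^ (e + 1) ∣ n) : n.factorization l = e := by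
  rw [hl.pow_dvd_iff_le_factorization hn] at h1 h2
  omega

/-- the same with `a` determined by `ℓ`-adic valuations: `v(p - 1) + a = v(24) + s` -/
theorem hasUnitForm_of_eisCong_factorization {s a : ℕ} {f : CuspForm (Gamma0 p) 2}
    (hf : EisCong p (l ^ s) f)
    (h : (p - 1).factorization l + a = (24).factorization l + s) : HasUnitForm p l a := by
  have hp := hpF.out
  have hl := hlF.out
  have hp1 : p - 1 ≠ 0 := by have := hp.two_le; omega
  obtain ⟨w, hw⟩ : ∃ w, w = (p - 1).factorization l := ⟨_, rfl⟩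
  obtain ⟨e, he⟩ : ∃ e, e = (24).factorization l := ⟨_, rfl⟩
  obtain ⟨m, hm'⟩ : ∃ m, m = (p - 1) / l ^ w := ⟨_, rfl⟩
  obtain ⟨c, hc'⟩ : ∃ c, c = 24 / l ^ e := ⟨_, rfl⟩
  have hm : l ^ w * m = p - 1 := by
    rw [hm', hw]; exact Nat.ordProj_mul_ordCompl_eq_self (p - 1) l
  have hml : ¬ l ∣ m := by
    rw [hm', hw]; exact Nat.not_dvd_ordCompl hl hp1
  have hcop : m.Coprime l := ((Nat.Prime.coprime_iff_not_dvd hl).mpr hml).symm
  have hc : l ^ e * c = 24 := by
    rw [hc', he]; exact Nat.ordProj_mul_ordCompl_eq_self 24 l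
  rw [← hw, ← he] at h
  refine hasUnitForm_of_eisCong p l hf ((c : ℤℓ) * zlInv l m hcop) ?_
  have h1 : ((p : ℕ) : ℤℓ) - 1 = ((l : ℕ) : ℤℓ) ^ w * (m : ℤℓ) := by
    rw [← Nat.cast_pow, ← Nat.cast_mul, hm, Nat.cast_sub hp.one_le, Nat.cast_one]
  have h2 : (24 : ℤℓ) = ((l : ℕ) : ℤℓ) ^ e * (c : ℤℓ) := by
    rw [← Nat.cast_pow, ← Nat.cast_mul, hc]
    norm_num
  have hm0 : m ≠ 0 := by
    rintro rfl
    exact hml (dvd_zero l)
  have h3 := natCast_mul_zlInv l m hm0 hcop
  rw [h1, h2]
  have h4 : ((l : ℕ) : ℤℓ) ^ a * ((l : ℕ) : ℤℓ) ^ w =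
      ((l : ℕ) : ℤℓ) ^ e * ((l : ℕ) : ℤℓ) ^ s := by
    rw [← pow_add, ← pow_add, add_comm a w, h]
  linear_combination (c : ℤℓ) * zlInv l m hcop * (m : ℤℓ) * h4 +
    ((l : ℕ) : ℤℓ) ^ e * ((l : ℕ) : ℤℓ) ^ s * (c : ℤℓ) * h3

/-! ### Dirichlet: the auxiliary primes -/

omit hlF in
theorem exists_prime_aux_large (hl : l.Prime) (hl5 : 5 ≤ l) (N : ℕ) :
    ∃ r : ℕ, N < r ∧ r.Prime ∧ r ≠ l ∧
      ∃ m : ℤ, (r : ℤ) ^ 2 - 1 = (l : ℤ) ^ 0 * m ∧ ¬ (l : ℤ) ∣ m := by
  have hcop : (2 : ℕ).Coprime l := by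
    rw [Nat.coprime_primes Nat.prime_two hl]
    omega
  obtain ⟨r, hr, hrp, hmod⟩ := Nat.forall_exists_prime_gt_and_modEq (max N l) hl.ne_zero hcop
  refine ⟨r, lt_of_le_of_lt (le_max_left _ _) hr, hrp, ?_, (r : ℤ) ^ 2 - 1, by ring, ?_⟩
  · have := lt_of_le_of_lt (le_max_right N l) hr
    omega
  · have h1 := (Nat.modEq_iff_dvd.mp hmod)
    obtain ⟨c, hc⟩ := h1
    intro ⟨d, hd⟩
    have h3 : (l : ℤ) ∣ 3 := by
      refine ⟨d - (l : ℤ) * c ^ 2 + 4 * c, ?_⟩
      have hr' : (r : ℤ) = 2 - (l : ℤ) * c := by push_cast at hc; linarith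
      rw [hr'] at hd
      linear_combination hd
    have := Int.le_of_dvd (by norm_num) h3
    omega

theorem exists_prime_aux_three (N : ℕ) :
    ∃ r : ℕ, N < r ∧ r.Prime ∧ r ≠ 3 ∧
      ∃ m : ℤ, (r : ℤ) ^ 2 - 1 = ((3 : ℕ) : ℤ) ^ 1 * m ∧ ¬ ((3 : ℕ) : ℤ) ∣ m := by
  obtain ⟨r, hr, hrp, hmod⟩ := Nat.forall_exists_prime_gt_and_modEq (max N 3) (q := 9) (a := 2)
    (by norm_num) (by norm_num)
  obtain ⟨c, hc⟩ := Nat.modEq_iff_dvd.mp hmod
  have hr' : (r : ℤ) = 2 - 9 * c := by push_cast at hc; linarith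
  refine ⟨r, lt_of_le_of_lt (le_max_left _ _) hr, hrp, ?_, 1 - 12 * c + 27 * c ^ 2, ?_, ?_⟩
  · have := lt_of_le_of_lt (le_max_right N 3) hr
    omega
  · rw [hr']; push_cast; ring
  · rintro ⟨d, hd⟩
    have h3 : (3 : ℤ) ∣ 1 := ⟨d + 4 * c - 9 * c ^ 2, by push_cast at hd; linear_combination hd⟩
    norm_num at h3

theorem exists_prime_aux_two (N : ℕ) :
    ∃ r : ℕ, N < r ∧ r.Prime ∧ r ≠ 2 ∧
      ∃ m : ℤ, (r : ℤ) ^ 2 - 1 = ((2 : ℕ) : ℤ) ^ 3 * m ∧ ¬ ((2 : ℕ) : ℤ) ∣ m := by
  obtain ⟨r, hr, hrp, hmod⟩ := Nat.forall_exists_prime_gt_and_modEq (max N 2) (q := 8) (a := 3)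
    (by norm_num) (by norm_num)
  obtain ⟨c, hc⟩ := Nat.modEq_iff_dvd.mp hmod
  have hr' : (r : ℤ) = 3 - 8 * c := by push_cast at hc; linarith
  refine ⟨r, lt_of_le_of_lt (le_max_left _ _) hr, hrp, ?_, 1 - 6 * c + 8 * c ^ 2, ?_, ?_⟩
  · have := lt_of_le_of_lt (le_max_right N 2) hr
    omega
  · rw [hr']; push_cast; ring
  · rintro ⟨d, hd⟩
    have h3 : (2 : ℤ) ∣ 1 := ⟨d + 3 * c - 4 * c ^ 2, by push_cast at hd; linear_combination hd⟩
    norm_num at h3

theorem not_hasUnitForm_large (hl5 : 5 ≤ l) : ¬ HasUnitForm p l 1 := by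
  have hp := hpF.out
  refine HasUnitForm.false_of_primes p l (t := 0) (by norm_num) ?_
    (exists_prime_aux_large l hlF.out hl5)
  have := hp.two_le
  omega

theorem not_hasUnitForm_three : ¬ HasUnitForm p 3 2 := by
  have hp := hpF.out
  refine HasUnitForm.false_of_primes p 3 (t := 1) (by norm_num) ?_ exists_prime_aux_three
  have := hp.two_le
  omega

theorem not_hasUnitForm_two : ¬ HasUnitForm p 2 4 := by
  have hp := hpF.out
  refine HasUnitForm.false_of_primes p 2 (t := 3) (by norm_num) ?_ exists_prime_aux_two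
  have := hp.two_le
  omega

/-! ### The upper bound -/

omit hpF in
theorem eisensteinNumerator_pos [hp : Fact p.Prime] : 0 < ModularCurve.eisensteinNumerator p := by
  have h2 := hp.out.two_le
  unfold ModularCurve.eisensteinNumerator
  apply Nat.div_pos
  · exact Nat.le_of_dvd (by omega) (Nat.gcd_dvd_left _ _)
  · exact Nat.gcd_pos_of_pos_left _ (by omega)

omit hlF in
theorem pow_dvd_eisensteinNumerator_iff (hl : l.Prime) (s : ℕ) :
    l ^ s ∣ ModularCurve.eisensteinNumerator p ↔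
      s ≤ (p - 1).factorization l - min ((p - 1).factorization l) ((12).factorization l) := by
  have hp := hpF.out
  have hp1 : p - 1 ≠ 0 := by have := hp.two_le; omega
  rw [hl.pow_dvd_iff_le_factorization (eisensteinNumerator_pos p).ne']
  unfold ModularCurve.eisensteinNumerator
  rw [Nat.factorization_div (Nat.gcd_dvd_left _ _), Finsupp.tsub_apply,
    Nat.factorization_gcd hp1 (by norm_num), Finsupp.inf_apply]

/-- **(C)** the upper bound for Eisenstein congruences modulo prime powers -/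
theorem eisCong_primePow_dvd_or {l s : ℕ} (hl : l.Prime)
    {f : CuspForm (CongruenceSubgroup.Gamma0 p) 2} (h : EisCong p (l ^ s) f) :
    l ^ s ∣ ModularCurve.eisensteinNumerator p ∨ (l = 2 ∧ p % 8 = 7 ∧ s = 1) := by
  have hp := hpF.out
  have hp2 := hp.two_le
  have hp1 : p - 1 ≠ 0 := by omega
  haveI : Fact l.Prime := ⟨hl⟩
  rw [pow_dvd_eisensteinNumerator_iff p l hl]
  obtain ⟨w, hw⟩ : ∃ w, w = (p - 1).factorization l := ⟨_, rfl⟩
  have hwdvd : l ^ w ∣ p - 1 := by rw [hw]; exact Nat.ordProj_dvd _ _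
  have key : ∀ a, w + a = (24).factorization l + s → HasUnitForm p l a := fun a ha =>
    hasUnitForm_of_eisCong_factorization p l h (by rw [← hw]; exact ha)
  rw [← hw]
  by_cases hl2 : l = 2
  · subst hl2
    have e12 : (12).factorization 2 = 2 :=
      factorization_eq_of_pow_dvd 2 Nat.prime_two (by norm_num) (by norm_num) (by norm_num)
    have e24 : (24).factorization 2 = 3 :=
      factorization_eq_of_pow_dvd 2 Nat.prime_two (by norm_num) (by norm_num) (by norm_num)
    rw [e12]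
    rw [e24] at key
    by_cases hs : s ≤ w - min w 2
    · exact Or.inl hs
    · rcases Nat.lt_or_ge w 2 with hw2 | hw2
      · interval_cases w
        · -- `w = 0`
          exfalso
          have h1 := key (s + 3) (by omega)
          exact not_hasUnitForm_two p (h1.mono p 2 (by omega))
        · -- `w = 1`
          have hpne : p ≠ 2 := by
            rintro rfl
            norm_num at hwdvd
          rcases Nat.lt_or_ge s 2 with hs2 | hs2
          · have hs1 : s = 1 := by omega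
            subst hs1
            right
            have h1 := key 3 (by omega)
            have h2 := h1.dvd_succ p 2 hpne
            refine ⟨rfl, ?_, rfl⟩
            norm_num at h2
            omega
          · exfalso
            have h1 := key (s + 2) (by omega)
            exact not_hasUnitForm_two p (h1.mono p 2 (by omega))
      · exfalso
        have hpne : p ≠ 2 := by
          rintro rfl
          have : 2 ^ 2 ∣ 2 ^ w := pow_dvd_pow 2 hw2
          have := dvd_trans this hwdvd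
          norm_num at this
        have h1 := key (s + 3 - w) (by omega)
        have h2 := (h1.mono p 2 (b := 2) (by omega)).dvd_succ p 2 hpne
        have h3 : 2 ^ 2 ∣ p - 1 := dvd_trans (pow_dvd_pow 2 hw2) hwdvd
        norm_num at h2 h3
        omega
  by_cases hl3 : l = 3
  · subst hl3
    have e12 : (12).factorization 3 = 1 :=
      factorization_eq_of_pow_dvd 3 Nat.prime_three (by norm_num) (by norm_num) (by norm_num)
    have e24 : (24).factorization 3 = 1 :=
      factorization_eq_of_pow_dvd 3 Nat.prime_three (by norm_num) (by norm_num) (by norm_num)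
    rw [e12]
    rw [e24] at key
    by_cases hs : s ≤ w - min w 1
    · exact Or.inl hs
    · exfalso
      rcases Nat.eq_zero_or_pos w with hw0 | hw0
      · subst hw0
        have h1 := key (s + 1) (by omega)
        exact not_hasUnitForm_three p (h1.mono p 3 (by omega))
      · have h3 : 3 ^ 1 ∣ p - 1 := dvd_trans (pow_dvd_pow 3 hw0) hwdvd
        have hpne : p ≠ 3 := by
          rintro rfl
          norm_num at h3
        have h1 := key (s + 1 - w) (by omega)
        have h2 := (h1.mono p 3 (b := 1) (by omega)).dvd_succ p 3 hpne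
        norm_num at h2 h3
        omega
  · have hl5 : 5 ≤ l := by
      have := hl.two_le
      by_contra hlt
      have : l = 4 := by omega
      subst this
      norm_num at hl
    have hnd : ∀ n, n ∣ 24 → n ≠ 0 → ¬ l ∣ n := by
      intro n hn hn0 hln
      have h24 : l ∣ 24 := dvd_trans hln hn
      have := Nat.le_of_dvd (by norm_num) h24
      interval_cases l <;> first | omega | (exfalso; norm_num at hl)
    have e12 : (12).factorization l = 0 :=
      Nat.factorization_eq_zero_of_not_dvd (hnd 12 (by norm_num) (by norm_num))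
    have e24 : (24).factorization l = 0 :=
      Nat.factorization_eq_zero_of_not_dvd (hnd 24 (by norm_num) (by norm_num))
    rw [e12]
    rw [e24] at key
    by_cases hs : s ≤ w - min w 0
    · exact Or.inl hs
    · exfalso
      have h1 := key (s - w) (by omega)
      exact not_hasUnitForm_large p l hl5 (h1.mono p l (by omega))

end Fermat.Agent.Eis
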